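import Fermat.Agent.S55.F.ThmA

/-! # S55 chapter F: the formal Theorem A (root statement) -/

set_option autoImplicit false

namespace Fermat.Agent.S55Lib

open groupCohomology

/-- exactness of `0 → A → B → C → 0` for additive maps -/
structure SES {A B C : Type} [AddCommGroup A] [AddCommGroup B] [AddCommGroup C]
    (i : A →+ B) (k : B →+ C) : Prop where
  inj : Function.Injective i
  exact : ∀ b, k b = 0 ↔ ∃ a, i a = b
  surj : Function.Surjective k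

/-- equivariance of an additive map between two `G`-modules -/
def Equivar (G : Type) [Group G] {A B : Type} [AddCommGroup A] [AddCommGroup B]
    [DistribMulAction G A] [DistribMulAction G B] (φ : A →+ B) : Prop :=
  ∀ (g : G) (a : A), φ (g • a) = g • φ a

/-- restriction of a 1-cochain along `r` followed by a coefficient map -/
def loc₁ {G H A B : Type} [Group G] [Group H] (r : H →* G) (μ : A → B) (f : G → A) : H → B :=
  fun h => μ (f (r h))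

/-- restriction of a 2-cochain along `r` followed by a coefficient map -/
def loc₂ {G H A B : Type} [Group G] [Group H] (r : H →* G) (μ : A → B) (f : G × G → A) :
    H × H → B :=
  fun x => μ (f (r x.1, r x.2))

/-- `Ш²`: classes of level 2-cocycles that are locally level coboundaries. -/
def LSha2 {Γ : Type} [Group Γ] (𝓤 : Lev Γ) (M : Type) [AddCommGroup M] [DistribMulAction Γ M]
    {ι : Type} (Gv : ι → Type) [∀ v, Group (Gv v)] (𝓥 : ∀ v, Lev (Gv v)) (r : ∀ v, Gv v →* Γ)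
    (Mv : ι → Type) [∀ v, AddCommGroup (Mv v)] [∀ v, DistribMulAction (Gv v) (Mv v)]
    (μ : ∀ v, M →+ Mv v) : AddSubgroup (LH2 𝓤 M) where
  carrier := {x | ∃ f : LZ2 𝓤 M, QuotientAddGroup.mk f = x ∧
    ∀ v, loc₂ (r v) (μ v) (f : Γ × Γ → M) ∈ LB2 (𝓥 v) (Mv v)}
  zero_mem' := ⟨0, rfl, fun v => by
    have : loc₂ (r v) (μ v) ((0 : LZ2 𝓤 M) : Γ × Γ → M) = 0 := by
      funext x; simp [loc₂]
    rw [this]; exact zero_mem _⟩
  add_mem' := by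
    rintro _ _ ⟨f, rfl, hf⟩ ⟨f', rfl, hf'⟩
    refine ⟨f + f', rfl, fun v => ?_⟩
    have : loc₂ (r v) (μ v) ((f + f' : LZ2 𝓤 M) : Γ × Γ → M)
        = loc₂ (r v) (μ v) (f : Γ × Γ → M) + loc₂ (r v) (μ v) (f' : Γ × Γ → M) := by
      funext x; simp [loc₂]
    rw [this]; exact add_mem (hf v) (hf' v)
  neg_mem' := by
    rintro _ ⟨f, rfl, hf⟩
    refine ⟨-f, rfl, fun v => ?_⟩
    have : loc₂ (r v) (μ v) ((-f : LZ2 𝓤 M) : Γ × Γ → M)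
        = - loc₂ (r v) (μ v) (f : Γ × Γ → M) := by
      funext x; simp [loc₂]
    rw [this]; exact neg_mem (hf v)

/-- **Theorem A** (formal).  See board post #529 (2). -/
theorem thmA (p : ℕ) [Fact p.Prime]
    {Γ : Type} [Group Γ] (𝓤 : Lev Γ)
    {M A0 A1 B0 B1 C0 C1 : Type}
    [AddCommGroup M] [AddCommGroup A0] [AddCommGroup A1] [AddCommGroup B0] [AddCommGroup B1]
    [AddCommGroup C0] [AddCommGroup C1]
    [DistribMulAction Γ M] [DistribMulAction Γ A0] [DistribMulAction Γ A1]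
    [DistribMulAction Γ B0] [DistribMulAction Γ B1] [DistribMulAction Γ C0]
    [DistribMulAction Γ C1]
    (sM : 𝓤.Smooth M) (sA0 : 𝓤.Smooth A0) (sA1 : 𝓤.Smooth A1) (sB0 : 𝓤.Smooth B0)
    (sB1 : 𝓤.Smooth B1) (sC0 : 𝓤.Smooth C0) (sC1 : 𝓤.Smooth C1)
    (hpM : ∀ m : M, p • m = 0)
    (i : M →+ A0) (a : A0 →+ A1) (j0 : A0 →+ B0) (k0 : B0 →+ C0) (j1 : A1 →+ B1) (k1 : B1 →+ C1)
    (b : B0 →+ B1) (c : C0 →+ C1)
    (ei : Equivar Γ i) (ea : Equivar Γ a) (ej0 : Equivar Γ j0) (ek0 : Equivar Γ k0)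
    (ej1 : Equivar Γ j1) (ek1 : Equivar Γ k1) (eb : Equivar Γ b) (ec : Equivar Γ c)
    (sesA : SES i a) (ses0 : SES j0 k0) (ses1 : SES j1 k1)
    (sq1 : ∀ x, b (j0 x) = j1 (a x)) (sq2 : ∀ x, c (k0 x) = k1 (b x))
    -- local data
    {ι : Type} (Gv : ι → Type) [∀ v, Group (Gv v)] (𝓥 : ∀ v, Lev (Gv v)) (r : ∀ v, Gv v →* Γ)
    (hr : ∀ v, ∀ U ∈ 𝓤.mem, ∃ W ∈ (𝓥 v).mem, ∀ s ∈ W, r v s ∈ U)
    (Mv A0v A1v : ι → Type)
    [∀ v, AddCommGroup (Mv v)] [∀ v, AddCommGroup (A0v v)] [∀ v, AddCommGroup (A1v v)]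
    [∀ v, DistribMulAction (Gv v) (Mv v)] [∀ v, DistribMulAction (Gv v) (A0v v)]
    [∀ v, DistribMulAction (Gv v) (A1v v)]
    (sMv : ∀ v, (𝓥 v).Smooth (Mv v)) (sA0v : ∀ v, (𝓥 v).Smooth (A0v v))
    (sA1v : ∀ v, (𝓥 v).Smooth (A1v v))
    (μ : ∀ v, M →+ Mv v) (β0 : ∀ v, B0 →+ A0v v) (β1 : ∀ v, B1 →+ A1v v)
    (iv : ∀ v, Mv v →+ A0v v) (av : ∀ v, A0v v →+ A1v v)
    (cμ : ∀ v, Compat (r v) (μ v)) (cβ0 : ∀ v, Compat (r v) (β0 v)) (cβ1 : ∀ v, Compat (r v) (β1 v))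
    (eiv : ∀ v, Equivar (Gv v) (iv v)) (eav : ∀ v, Equivar (Gv v) (av v))
    (sesv : ∀ v, SES (iv v) (av v))
    (sq3 : ∀ v x, β0 v (j0 (i x)) = iv v (μ v x)) (sq4 : ∀ v x, av v (β0 v x) = β1 v (b x))
    -- cohomological hypotheses
    (H1 : ∀ f ∈ LZ1 𝓤 C0, ∃ m : ℕ, m.Coprime p ∧ IsCoboundary₁ (m • f))
    (H2 : ∀ f ∈ LZ1 𝓤 B0, IsCoboundary₁ f)
    (H3 : ∀ v, ∀ f ∈ LZ1 (𝓥 v) (A0v v), IsCoboundary₁ f)
    (H4 : ∀ f ∈ LZ2 𝓤 B0, (∀ v, loc₂ (r v) (β0 v) f ∈ LB2 (𝓥 v) (A0v v)) → f ∈ LB2 𝓤 B0)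
    (H5 : ∀ f ∈ LZ1 𝓤 B1, (∀ v, IsCoboundary₁ (loc₁ (r v) (β1 v) f)) → IsCoboundary₁ f) :
    Nonempty (LSha2 𝓤 M Gv 𝓥 r Mv μ ≃+
      (inv (⊤ : Subgroup Γ) C1 ⧸
        (((inv (⊤ : Subgroup Γ) C0).map c ⊔ (inv (⊤ : Subgroup Γ) B1).map k1).addSubgroupOf
          (inv (⊤ : Subgroup Γ) C1)))) := by
  have hA : IsThmA p 𝓤 𝓥 r i a j0 k0 j1 k1 b c μ iv av β0 β1 :=
    { sA := ⟨sesA.inj, sesA.surj, sesA.exact⟩
      s0 := ⟨ses0.inj, ses0.surj, ses0.exact⟩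
      s1 := ⟨ses1.inj, ses1.surj, ses1.exact⟩
      sv := fun v => ⟨(sesv v).inj, (sesv v).surj, (sesv v).exact⟩
      sqAB := sq1
      sqBC := sq2
      sqM := sq3
      sqv := sq4
      i_eq := ei
      πA_eq := ea
      j0_eq := ej0
      q0_eq := ek0
      j1_eq := ej1
      q1_eq := ek1
      πB_eq := eb
      πC_eq := ec
      μ_eq := cμ
      iv_eq := eiv
      πv_eq := eav
      β0_eq := cβ0
      β1_eq := cβ1
      cont := hr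
      smA0 := sA0
      smB0 := sB0
      smB1 := sB1
      smA0v := sA0v
      pM := hpM
      H1 := fun f hf => by
        obtain ⟨m, hm, hb⟩ := H1 f hf
        exact ⟨(m : ℤ), Nat.isCoprime_iff_coprime.2 hm, by rwa [natCast_zsmul]⟩
      H2 := H2
      H3 := H3
      H4 := H4
      H5 := H5 }
  obtain ⟨e⟩ := hA.sha2_equiv
  -- identify the two versions of `Ш²`
  let Φ : ↥(ShaZ2 𝓤 𝓥 r μ) →+ ↥(LSha2 𝓤 M Gv 𝓥 r Mv μ) :=
    { toFun := fun f => ⟨QuotientAddGroup.mk (⟨f.1, (mem_ShaZ2.1 f.2).1⟩ : LZ2 𝓤 M),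
        ⟨⟨f.1, (mem_ShaZ2.1 f.2).1⟩, rfl, (mem_ShaZ2.1 f.2).2⟩⟩
      map_zero' := rfl
      map_add' := fun f f' => rfl }
  have hker : Φ.ker = (LB2 𝓤 M).addSubgroupOf (ShaZ2 𝓤 𝓥 r μ) := by
    ext f
    rw [AddMonoidHom.mem_ker, AddSubgroup.mem_addSubgroupOf, Subtype.ext_iff]
    show (QuotientAddGroup.mk (⟨f.1, (mem_ShaZ2.1 f.2).1⟩ : LZ2 𝓤 M) : LH2 𝓤 M) = 0 ↔ _
    rw [QuotientAddGroup.eq_zero_iff, AddSubgroup.mem_addSubgroupOf]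
  have hsur : Function.Surjective Φ := by
    rintro ⟨_, f, rfl, hf⟩
    exact ⟨⟨f.1, mem_ShaZ2.2 ⟨f.2, hf⟩⟩, rfl⟩
  exact ⟨((e.trans (QuotientAddGroup.quotientAddEquivOfEq hker.symm)).trans
    (QuotientAddGroup.quotientKerEquivOfSurjective Φ hsur)).symm⟩

end Fermat.Agent.S55Lib
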