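import Fermat.Agent.S55.Core

/-!
# S55 chapter F: basic cochain calculus for level cohomology

* `d01`, `pull₁`, `pull₂`, `Lev.Cont`;
* `d12` of a level cochain with values in a smooth module is a level cochain;
* lifting of level cochains along maps;
* `nonempty_addEquiv_of_rel`: an additive correspondence inducing an isomorphism of quotients.
-/

set_option autoImplicit false
set_option linter.unusedSectionVars false
set_option linter.unusedVariables false

namespace Fermat.Agent.S55Lib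

open groupCohomology

universe u v w

section Rel

/-- An additive correspondence `R ⊆ X × Y`, total and surjective, which matches `X'` with `Y'`,
induces an isomorphism `X ⧸ X' ≃+ Y ⧸ Y'`. -/
theorem nonempty_addEquiv_of_rel {X Y : Type*} [AddCommGroup X] [AddCommGroup Y]
    (X' : AddSubgroup X) (Y' : AddSubgroup Y) (R : X → Y → Prop)
    (hadd : ∀ x x' y y', R x y → R x' y' → R (x + x') (y + y'))
    (htot : ∀ x, ∃ y, R x y)
    (hiff : ∀ x y, R x y → (x ∈ X' ↔ y ∈ Y'))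
    (hsurj : ∀ y, ∃ x, R x y) : Nonempty (X ⧸ X' ≃+ Y ⧸ Y') := by
  classical
  choose F hF using htot
  have key : ∀ x y y', R x y → R x y' → y - y' ∈ Y' := by
    intro x y y' h h'
    have h0 := hF (-x)
    have h1 := hadd _ _ _ _ h h0
    have h2 := hadd _ _ _ _ h' h0
    rw [add_neg_cancel] at h1 h2
    have h3 := (hiff _ _ h1).1 X'.zero_mem
    have h4 := (hiff _ _ h2).1 X'.zero_mem
    have := Y'.sub_mem h3 h4
    simpa using this
  let Φ : X →+ Y ⧸ Y' :=
    { toFun := fun x => QuotientAddGroup.mk (F x)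
      map_zero' := (QuotientAddGroup.eq_zero_iff _).2 ((hiff _ _ (hF 0)).1 X'.zero_mem)
      map_add' := fun x x' => by
        rw [← QuotientAddGroup.mk_add, QuotientAddGroup.eq_iff_sub_mem]
        exact key _ _ _ (hF _) (hadd _ _ _ _ (hF x) (hF x')) }
  have hker : Φ.ker = X' := by
    ext x
    rw [AddMonoidHom.mem_ker]
    show (QuotientAddGroup.mk (F x) : Y ⧸ Y') = 0 ↔ _
    rw [QuotientAddGroup.eq_zero_iff]
    exact (hiff _ _ (hF x)).symm
  have hsur : Function.Surjective Φ := by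
    intro q
    obtain ⟨y, rfl⟩ := QuotientAddGroup.mk_surjective q
    obtain ⟨x, hx⟩ := hsurj y
    refine ⟨x, ?_⟩
    show (QuotientAddGroup.mk (F x) : Y ⧸ Y') = QuotientAddGroup.mk y
    rw [QuotientAddGroup.eq_iff_sub_mem]
    exact key _ _ _ (hF x) hx
  exact ⟨(QuotientAddGroup.quotientAddEquivOfEq hker.symm).trans
    (QuotientAddGroup.quotientKerEquivOfSurjective Φ hsur)⟩

end Rel

section Const

variable {G : Type u} [Group G] {𝓤 : Lev G}

lemma Lev.Const₁.of_comp_injective {X Y : Type*} {f : G → X} {φ : X → Y}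
    (hφ : Function.Injective φ) (hf : 𝓤.Const₁ (fun g => φ (f g))) : 𝓤.Const₁ f := by
  obtain ⟨U, hU, h⟩ := hf
  exact ⟨U, hU, fun g s hs => hφ (h g s hs)⟩

lemma Lev.Const₂.of_comp_injective {X Y : Type*} {f : G × G → X} {φ : X → Y}
    (hφ : Function.Injective φ) (hf : 𝓤.Const₂ (fun x => φ (f x))) : 𝓤.Const₂ f := by
  obtain ⟨U, hU, h⟩ := hf
  exact ⟨U, hU, fun g k s hs t ht => hφ (h g k s hs t ht)⟩

lemma Lev.Const₁.map₂ {X Y Z : Type*} {f : G → X} {f' : G → Y} (hf : 𝓤.Const₁ f)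
    (hf' : 𝓤.Const₁ f') (op : X → Y → Z) : 𝓤.Const₁ (fun g => op (f g) (f' g)) := by
  obtain ⟨U, hU, h⟩ := hf
  obtain ⟨V, hV, h'⟩ := hf'
  obtain ⟨W, hW, hWU, hWV⟩ := 𝓤.directed U hU V hV
  exact ⟨W, hW, fun g s hs => by simp only [h g s (hWU hs), h' g s (hWV hs)]⟩

lemma Lev.Const₁.sub {X : Type*} [Sub X] {f f' : G → X} (hf : 𝓤.Const₁ f)
    (hf' : 𝓤.Const₁ f') : 𝓤.Const₁ (fun g => f g - f' g) := hf.map₂ hf' (· - ·)

/-- lifting a level 1-cochain along a map whose image contains its values -/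
lemma Lev.Const₁.exists_lift {X Y : Type*} {f : G → Y} (hf : 𝓤.Const₁ f) (φ : X → Y)
    (h : ∀ g, ∃ x, φ x = f g) : ∃ F : G → X, 𝓤.Const₁ F ∧ ∀ g, φ (F g) = f g := by
  have : Nonempty X := ⟨(h 1).choose⟩
  exact ⟨Function.invFun φ ∘ f, hf.comp _, fun g => Function.invFun_eq (h g)⟩

/-- lifting a level 2-cochain along a map whose image contains its values -/
lemma Lev.Const₂.exists_lift {X Y : Type*} {f : G × G → Y} (hf : 𝓤.Const₂ f) (φ : X → Y)
    (h : ∀ x, ∃ y, φ y = f x) : ∃ F : G × G → X, 𝓤.Const₂ F ∧ ∀ x, φ (F x) = f x := by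
  have : Nonempty X := ⟨(h (1, 1)).choose⟩
  exact ⟨Function.invFun φ ∘ f, hf.comp _, fun g => Function.invFun_eq (h g)⟩

/-- a level 1-cochain takes finitely many values -/
lemma Lev.Const₁.finite_range {X : Type*} {f : G → X} (hf : 𝓤.Const₁ f) :
    (Set.range f).Finite := by
  obtain ⟨U, hU, h⟩ := hf
  have := 𝓤.finiteIndex U hU
  have : Set.range f ⊆ Set.range (fun q : G ⧸ U => f q.out) := by
    rintro _ ⟨g, rfl⟩
    obtain ⟨s, hs⟩ := QuotientGroup.mk_out_eq_mul U g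
    exact ⟨(g : G ⧸ U), by simp only [hs, h g s s.2]⟩
  exact (Set.finite_range _).subset this

end Const

section Smooth

variable {G : Type u} [Group G] {𝓤 : Lev G} {A : Type v} [AddCommGroup A] [DistribMulAction G A]

/-- finitely many elements of a smooth module are fixed by a common level -/
lemma Lev.Smooth.exists_level (hA : 𝓤.Smooth A) {s : Set A} (hs : s.Finite) :
    ∃ W ∈ 𝓤.mem, ∀ a ∈ s, ∀ t ∈ W, t • a = a := by
  induction s, hs using Set.Finite.induction_on with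
  | empty =>
    obtain ⟨U, hU⟩ := 𝓤.nonempty
    exact ⟨U, hU, fun a ha => absurd ha (Set.notMem_empty a)⟩
  | @insert a s _ _ ih =>
    obtain ⟨W, hW, h⟩ := ih
    obtain ⟨U, hU, h'⟩ := hA a
    obtain ⟨V, hV, hVW, hVU⟩ := 𝓤.directed W hW U hU
    refine ⟨V, hV, fun b hb t ht => ?_⟩
    rcases Set.mem_insert_iff.1 hb with rfl | hb
    · exact h' t (hVU ht)
    · exact h b hb t (hVW ht)

variable (G A) in
/-- the coboundary `C⁰ → C¹` -/
def d01 : A →+ (G → A) where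
  toFun a := fun g => g • a - a
  map_zero' := by ext; simp
  map_add' x y := by ext g; simp only [Pi.add_apply, smul_add]; abel

@[simp] lemma d01_apply (a : A) (g : G) : d01 G A a g = g • a - a := rfl

@[simp] lemma d12_apply (x : G → A) (g h : G) :
    d12 A x (g, h) = g • x h - x (g * h) + x g := rfl

lemma isCoboundary₁_iff {f : G → A} : IsCoboundary₁ f ↔ ∃ a, ∀ g, f g = g • a - a :=
  ⟨fun ⟨a, h⟩ => ⟨a, fun g => (h g).symm⟩, fun ⟨a, h⟩ => ⟨a, fun g => (h g).symm⟩⟩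

lemma mem_LC1 {f : G → A} : f ∈ LC1 𝓤 A ↔ 𝓤.Const₁ f := Iff.rfl
lemma mem_LC2 {f : G × G → A} : f ∈ LC2 𝓤 A ↔ 𝓤.Const₂ f := Iff.rfl
lemma mem_LZ1 {f : G → A} : f ∈ LZ1 𝓤 A ↔ IsCocycle₁ f ∧ 𝓤.Const₁ f := Iff.rfl
lemma mem_LZ2 {f : G × G → A} : f ∈ LZ2 𝓤 A ↔ IsCocycle₂ f ∧ 𝓤.Const₂ f := Iff.rfl
lemma mem_LB2 {f : G × G → A} : f ∈ LB2 𝓤 A ↔
    ∃ x : G → A, 𝓤.Const₁ x ∧ ∀ g h, f (g, h) = g • x h - x (g * h) + x g := by
  constructor
  · rintro ⟨x, hx, rfl⟩
    exact ⟨x, hx, fun g h => rfl⟩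
  · rintro ⟨x, hx, h⟩
    exact ⟨x, hx, funext fun ⟨g, k⟩ => (h g k).symm⟩

/-- `g ↦ g a - a` is a level cochain if `A` is smooth -/
lemma Lev.Smooth.const₁_d01 (hA : 𝓤.Smooth A) (a : A) : 𝓤.Const₁ (fun g : G => g • a - a) := by
  obtain ⟨U, hU, h⟩ := hA a
  exact ⟨U, hU, fun g s hs => by simp only [mul_smul, h s hs]⟩

/-- the coboundary of a level 1-cochain with values in a smooth module is a level 2-cochain -/
lemma Lev.Smooth.const₂_d12 (hA : 𝓤.Smooth A) {x : G → A} (hx : 𝓤.Const₁ x) :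
    𝓤.Const₂ (fun y : G × G => y.1 • x y.2 - x (y.1 * y.2) + x y.1) := by
  obtain ⟨W, hW, hfix⟩ := hA.exists_level hx.finite_range
  obtain ⟨U, hU, h⟩ := hx
  obtain ⟨V, hV, hVW, hVU⟩ := 𝓤.directed W hW U hU
  have := 𝓤.normal V hV
  refine ⟨V, hV, fun g k s hs t ht => ?_⟩
  have h1 : x (k * t) = x k := h k t (hVU ht)
  have h2 : x (g * s) = x g := h g s (hVU hs)
  have h3 : x (g * s * (k * t)) = x (g * k) := by
    have hmem : k⁻¹ * s * k * t ∈ V := by
      refine V.mul_mem ?_ ht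
      have := Subgroup.Normal.conj_mem (inferInstance : V.Normal) s hs k⁻¹
      simpa using this
    have : g * s * (k * t) = g * k * (k⁻¹ * s * k * t) := by group
    rw [this]
    exact h _ _ (hVU hmem)
  have h4 : s • x k = x k := hfix _ ⟨k, rfl⟩ s (hVW hs)
  simp only [h1, h2, h3, mul_smul, h4]

/-- `d ∘ d = 0` in degrees `1,2,3` -/
lemma isCocycle₂_d12 (x : G → A) :
    IsCocycle₂ (fun y : G × G => y.1 • x y.2 - x (y.1 * y.2) + x y.1) := by
  intro g h j
  simp only [smul_add, smul_sub, mul_smul, mul_assoc]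
  abel

lemma isCocycle₁_d01 (a : A) : IsCocycle₁ (fun g : G => g • a - a) := by
  intro g h
  simp only [smul_sub, mul_smul]
  abel

lemma isCocycle₁_iff {x : G → A} :
    IsCocycle₁ x ↔ ∀ g h, g • x h - x (g * h) + x g = 0 := by
  constructor
  · intro hx g h
    rw [hx g h]; abel
  · intro hx g h
    have := hx g h
    have h2 : x (g * h) = g • x h + x g - (g • x h - x (g * h) + x g) := by abel
    rw [h2, this, sub_zero]

end Smooth

section Pull

variable {G : Type u} [Group G] {𝓤 : Lev G} {H : Type w} [Group H] {𝓥 : Lev H}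
  {A : Type v} [AddCommGroup A] [DistribMulAction G A]
  {B : Type v} [AddCommGroup B] [DistribMulAction H B]

/-- `r : H →* G` is continuous for the level systems -/
def Lev.Cont (𝓤 : Lev G) (𝓥 : Lev H) (r : H →* G) : Prop :=
  ∀ U ∈ 𝓤.mem, ∃ V ∈ 𝓥.mem, ∀ s ∈ V, r s ∈ U

lemma Lev.cont_id (𝓤 : Lev G) : 𝓤.Cont 𝓤 (MonoidHom.id G) := fun U hU => ⟨U, hU, fun _ hs => hs⟩

/-- pull back 1-cochains along `r : H →* G` and push forward along `φ : A →+ B` -/
def pull₁ (r : H →* G) (φ : A →+ B) : (G → A) →+ (H → B) where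
  toFun f := fun h => φ (f (r h))
  map_zero' := by ext; simp
  map_add' x y := by ext; simp

/-- pull back 2-cochains along `r : H →* G` and push forward along `φ : A →+ B` -/
def pull₂ (r : H →* G) (φ : A →+ B) : (G × G → A) →+ (H × H → B) where
  toFun f := fun x => φ (f (r x.1, r x.2))
  map_zero' := by ext; simp
  map_add' x y := by ext; simp

@[simp] lemma pull₁_apply (r : H →* G) (φ : A →+ B) (f : G → A) (h : H) :
    pull₁ r φ f h = φ (f (r h)) := rfl

@[simp] lemma pull₂_apply (r : H →* G) (φ : A →+ B) (f : G × G → A) (x : H × H) :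
    pull₂ r φ f x = φ (f (r x.1, r x.2)) := rfl

lemma Lev.Cont.const₁ {r : H →* G} (hr : 𝓤.Cont 𝓥 r) {X Y : Type*} {f : G → X}
    (hf : 𝓤.Const₁ f) (φ : X → Y) : 𝓥.Const₁ (fun h => φ (f (r h))) := by
  obtain ⟨U, hU, h⟩ := hf
  obtain ⟨V, hV, hVU⟩ := hr U hU
  exact ⟨V, hV, fun g s hs => by simp only [map_mul, h _ _ (hVU s hs)]⟩

lemma Lev.Cont.const₂ {r : H →* G} (hr : 𝓤.Cont 𝓥 r) {X Y : Type*} {f : G × G → X}
    (hf : 𝓤.Const₂ f) (φ : X → Y) : 𝓥.Const₂ (fun x => φ (f (r x.1, r x.2))) := by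
  obtain ⟨U, hU, h⟩ := hf
  obtain ⟨V, hV, hVU⟩ := hr U hU
  exact ⟨V, hV, fun g k s hs t ht => by simp only [map_mul, h _ _ _ (hVU s hs) _ (hVU t ht)]⟩

lemma Compat.eq {r : H →* G} {φ : A →+ B} (hφ : Compat r φ) (h : H) (a : A) :
    φ (r h • a) = h • φ a := hφ h a

lemma Compat.lvCocycle₁ {r : H →* G} {φ : A →+ B} (hφ : Compat r φ) {f : G → A}
    (hf : IsCocycle₁ f) : IsCocycle₁ (fun h => φ (f (r h))) := by
  intro g h
  simp only [map_mul, hf (r g) (r h), map_add, hφ.eq]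

lemma Compat.lvCocycle₂ {r : H →* G} {φ : A →+ B} (hφ : Compat r φ) {f : G × G → A}
    (hf : IsCocycle₂ f) : IsCocycle₂ (fun x : H × H => φ (f (r x.1, r x.2))) := by
  intro g h j
  have := congrArg φ (hf (r g) (r h) (r j))
  simpa only [map_mul, map_add, hφ.eq] using this

lemma Compat.lvCoboundary₁ {r : H →* G} {φ : A →+ B} (hφ : Compat r φ) {f : G → A}
    (hf : IsCoboundary₁ f) : IsCoboundary₁ (fun h => φ (f (r h))) := by
  obtain ⟨a, ha⟩ := hf
  exact ⟨φ a, fun g => by simp only [← ha, map_sub, hφ.eq]⟩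

/-- `pull₂` maps level coboundaries to level coboundaries -/
lemma pull₂_mem_LB2 {r : H →* G} (hr : 𝓤.Cont 𝓥 r) {φ : A →+ B} (hφ : Compat r φ)
    {f : G × G → A} (hf : f ∈ LB2 𝓤 A) : pull₂ r φ f ∈ LB2 𝓥 B := by
  obtain ⟨x, hx, h⟩ := mem_LB2.1 hf
  refine mem_LB2.2 ⟨fun k => φ (x (r k)), hr.const₁ hx φ, fun g k => ?_⟩
  simp only [pull₂_apply, h, map_add, map_sub, hφ.eq, map_mul]

/-- `pull₂` maps level cocycles to level cocycles -/
lemma pull₂_mem_LZ2 {r : H →* G} (hr : 𝓤.Cont 𝓥 r) {φ : A →+ B} (hφ : Compat r φ)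
    {f : G × G → A} (hf : f ∈ LZ2 𝓤 A) : pull₂ r φ f ∈ LZ2 𝓥 B :=
  mem_LZ2.2 ⟨hφ.lvCocycle₂ hf.1, hr.const₂ hf.2 φ⟩

/-- `pull₁` maps level cocycles to level cocycles -/
lemma pull₁_mem_LZ1 {r : H →* G} (hr : 𝓤.Cont 𝓥 r) {φ : A →+ B} (hφ : Compat r φ)
    {f : G → A} (hf : f ∈ LZ1 𝓤 A) : pull₁ r φ f ∈ LZ1 𝓥 B :=
  mem_LZ1.2 ⟨hφ.lvCocycle₁ hf.1, hr.const₁ hf.2 φ⟩

end Pull

section Inj

variable {G : Type u} [Group G] {A : Type v} [AddCommGroup A] [DistribMulAction G A]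
  {B : Type v} [AddCommGroup B] [DistribMulAction G B]

lemma Compat.eq_id {φ : A →+ B} (hφ : Compat (MonoidHom.id G) φ) (g : G) (a : A) :
    φ (g • a) = g • φ a := hφ g a

lemma isCocycle₂_of_injective {φ : A →+ B} (hφ : Compat (MonoidHom.id G) φ)
    (hinj : Function.Injective φ) {f : G × G → A}
    (hf : IsCocycle₂ (fun x => φ (f x))) : IsCocycle₂ f := by
  intro g h j
  apply hinj
  have := hf g h j
  have e : ∀ (g : G) (a : A), φ (g • a) = g • φ a := fun g a => hφ g a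
  simpa only [map_add, e] using this

lemma isCocycle₁_of_injective {φ : A →+ B} (hφ : Compat (MonoidHom.id G) φ)
    (hinj : Function.Injective φ) {f : G → A}
    (hf : IsCocycle₁ (fun x => φ (f x))) : IsCocycle₁ f := by
  intro g h
  apply hinj
  have := hf g h
  have e : ∀ (g : G) (a : A), φ (g • a) = g • φ a := fun g a => hφ g a
  simpa only [map_add, e] using this

end Inj

end Fermat.Agent.S55Lib
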