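import Fermat.Agent.S55.F.Basic

/-!
# S55 chapter F: formal Theorem A

`Ш²(M) ≃+ C1^Γ ⧸ (im C0^Γ + im B1^Γ)` by a diagram chase on level cochains.
-/

set_option autoImplicit false
set_option linter.unusedSectionVars false
set_option linter.unusedVariables false

namespace Fermat.Agent.S55Lib

open groupCohomology

universe u v w x

/-- a short exact sequence of additive groups -/
structure IsSES {A B C : Type*} [AddCommGroup A] [AddCommGroup B] [AddCommGroup C]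
    (ι : A →+ B) (π : B →+ C) : Prop where
  inj : Function.Injective ι
  surj : Function.Surjective π
  exact : ∀ b, π b = 0 ↔ ∃ a, ι a = b

lemma IsSES.comp_eq_zero {A B C : Type*} [AddCommGroup A] [AddCommGroup B] [AddCommGroup C]
    {ι : A →+ B} {π : B →+ C} (h : IsSES ι π) (a : A) : π (ι a) = 0 := (h.exact _).2 ⟨a, rfl⟩

section Sha

variable {Γ : Type u} [Group Γ] (𝓤 : Lev Γ) {M : Type v} [AddCommGroup M] [DistribMulAction Γ M]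
  {I : Type x} {Gv : I → Type w} [∀ v, Group (Gv v)] (𝓥 : ∀ v, Lev (Gv v)) (r : ∀ v, Gv v →* Γ)
  {Mv : I → Type v} [∀ v, AddCommGroup (Mv v)] [∀ v, DistribMulAction (Gv v) (Mv v)]
  (μ : ∀ v, M →+ Mv v)

/-- level 2-cocycles of `Γ` that are level coboundaries at every `v` -/
def ShaZ2 : AddSubgroup (Γ × Γ → M) :=
  LZ2 𝓤 M ⊓ ⨅ v, (LB2 (𝓥 v) (Mv v)).comap (pull₂ (r v) (μ v))

variable {𝓤 𝓥 r μ} in
lemma mem_ShaZ2 {f : Γ × Γ → M} : f ∈ ShaZ2 𝓤 𝓥 r μ ↔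
    f ∈ LZ2 𝓤 M ∧ ∀ v, pull₂ (r v) (μ v) f ∈ LB2 (𝓥 v) (Mv v) := by
  simp only [ShaZ2, AddSubgroup.mem_inf, AddSubgroup.mem_iInf, AddSubgroup.mem_comap]

/-- `Ш²`: the kernel of `LH²(Γ,M) → ∏ᵥ LH²(Gᵥ,Mᵥ)`, as a quotient of `ShaZ2`. -/
abbrev ShaQ2 : Type max u v := ↥(ShaZ2 𝓤 𝓥 r μ) ⧸ (LB2 𝓤 M).addSubgroupOf (ShaZ2 𝓤 𝓥 r μ)

end Sha

section ThmA

variable (p : ℕ) {Γ : Type u} [Group Γ] (𝓤 : Lev Γ)
  {M A0 A1 B0 B1 C0 C1 : Type v}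
  [AddCommGroup M] [DistribMulAction Γ M] [AddCommGroup A0] [DistribMulAction Γ A0]
  [AddCommGroup A1] [DistribMulAction Γ A1] [AddCommGroup B0] [DistribMulAction Γ B0]
  [AddCommGroup B1] [DistribMulAction Γ B1] [AddCommGroup C0] [DistribMulAction Γ C0]
  [AddCommGroup C1] [DistribMulAction Γ C1]
  {I : Type x} {Gv : I → Type w} [∀ v, Group (Gv v)] (𝓥 : ∀ v, Lev (Gv v))
  (r : ∀ v, Gv v →* Γ)
  {Mv A0v A1v : I → Type v}
  [∀ v, AddCommGroup (Mv v)] [∀ v, DistribMulAction (Gv v) (Mv v)]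
  [∀ v, AddCommGroup (A0v v)] [∀ v, DistribMulAction (Gv v) (A0v v)]
  [∀ v, AddCommGroup (A1v v)] [∀ v, DistribMulAction (Gv v) (A1v v)]
  (i : M →+ A0) (πA : A0 →+ A1) (j0 : A0 →+ B0) (q0 : B0 →+ C0) (j1 : A1 →+ B1) (q1 : B1 →+ C1)
  (πB : B0 →+ B1) (πC : C0 →+ C1) (μ : ∀ v, M →+ Mv v) (iv : ∀ v, Mv v →+ A0v v)
  (πv : ∀ v, A0v v →+ A1v v) (β0 : ∀ v, B0 →+ A0v v) (β1 : ∀ v, B1 →+ A1v v)

/-- The hypotheses of the formal Theorem A. -/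
structure IsThmA : Prop where
  sA : IsSES i πA
  s0 : IsSES j0 q0
  s1 : IsSES j1 q1
  sv : ∀ v, IsSES (iv v) (πv v)
  sqAB : ∀ a, πB (j0 a) = j1 (πA a)
  sqBC : ∀ b, πC (q0 b) = q1 (πB b)
  sqM : ∀ v m, β0 v (j0 (i m)) = iv v (μ v m)
  sqv : ∀ v b, πv v (β0 v b) = β1 v (πB b)
  i_eq : Compat (MonoidHom.id Γ) i
  πA_eq : Compat (MonoidHom.id Γ) πA
  j0_eq : Compat (MonoidHom.id Γ) j0
  q0_eq : Compat (MonoidHom.id Γ) q0
  j1_eq : Compat (MonoidHom.id Γ) j1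
  q1_eq : Compat (MonoidHom.id Γ) q1
  πB_eq : Compat (MonoidHom.id Γ) πB
  πC_eq : Compat (MonoidHom.id Γ) πC
  μ_eq : ∀ v, Compat (r v) (μ v)
  iv_eq : ∀ v, Compat (MonoidHom.id (Gv v)) (iv v)
  πv_eq : ∀ v, Compat (MonoidHom.id (Gv v)) (πv v)
  β0_eq : ∀ v, Compat (r v) (β0 v)
  β1_eq : ∀ v, Compat (r v) (β1 v)
  cont : ∀ v, 𝓤.Cont (𝓥 v) (r v)
  smA0 : 𝓤.Smooth A0
  smB0 : 𝓤.Smooth B0
  smB1 : 𝓤.Smooth B1
  smA0v : ∀ v, (𝓥 v).Smooth (A0v v)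
  pM : ∀ m : M, p • m = 0
  H1 : ∀ c ∈ LZ1 𝓤 C0, ∃ n : ℤ, IsCoprime n (p : ℤ) ∧ IsCoboundary₁ (n • c)
  H2 : ∀ c ∈ LZ1 𝓤 B0, IsCoboundary₁ c
  H3 : ∀ v, ∀ c ∈ LZ1 (𝓥 v) (A0v v), IsCoboundary₁ c
  H4 : ∀ c ∈ LZ2 𝓤 B0, (∀ v, pull₂ (r v) (β0 v) c ∈ LB2 (𝓥 v) (A0v v)) → c ∈ LB2 𝓤 B0
  H5 : ∀ c ∈ LZ1 𝓤 B1, (∀ v, IsCoboundary₁ (pull₁ (r v) (β1 v) c)) → IsCoboundary₁ c

/-- the correspondence `d' ∘ d` between `C1^Γ` and 2-cocycles of `M` -/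
def RelA (φ : C1) (f : Γ × Γ → M) : Prop :=
  ∃ (b : B1) (a : Γ → A0), q1 b = φ ∧ 𝓤.Const₁ a ∧ (∀ g, j1 (πA (a g)) = g • b - b) ∧
    ∀ g h, i (f (g, h)) = g • a h - a (g * h) + a g

variable {p 𝓤 𝓥 r i πA j0 q0 j1 q1 πB πC μ iv πv β0 β1}

lemma RelA.add {φ φ' : C1} {f f' : Γ × Γ → M} (h : RelA 𝓤 i πA j1 q1 φ f)
    (h' : RelA 𝓤 i πA j1 q1 φ' f') : RelA 𝓤 i πA j1 q1 (φ + φ') (f + f') := by
  obtain ⟨b, a, hb, ha, h1, h2⟩ := h
  obtain ⟨b', a', hb', ha', h1', h2'⟩ := h'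
  refine ⟨b + b', a + a', by rw [map_add, hb, hb'], ha.add ha', fun g => ?_, fun g k => ?_⟩
  · simp only [Pi.add_apply, map_add, h1, h1', smul_add]; abel
  · simp only [Pi.add_apply, map_add, h2, h2', smul_add]; abel

namespace IsThmA

variable (h : IsThmA p 𝓤 𝓥 r i πA j0 q0 j1 q1 πB πC μ iv πv β0 β1)
include h

lemma rel_total {φ : C1} (hφ : φ ∈ inv (⊤ : Subgroup Γ) C1) :
    ∃ f, RelA 𝓤 i πA j1 q1 φ f := by
  obtain ⟨b, rfl⟩ := h.s1.surj φ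
  have h1 : ∀ g : Γ, ∃ a : A0, j1 (πA a) = g • b - b := by
    intro g
    have : q1 (g • b - b) = 0 := by rw [map_sub, h.q1_eq.eq_id, hφ g trivial, sub_self]
    obtain ⟨a1, ha1⟩ := (h.s1.exact _).1 this
    obtain ⟨a0, rfl⟩ := h.sA.surj a1
    exact ⟨a0, ha1⟩
  obtain ⟨a, ha, haeq⟩ := (h.smB1.const₁_d01 b).exists_lift (fun x => j1 (πA x)) h1
  have h2 : ∀ x : Γ × Γ, ∃ m, i m = x.1 • a x.2 - a (x.1 * x.2) + a x.1 := by
    rintro ⟨g, k⟩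
    apply (h.sA.exact _).1
    apply h.s1.inj
    simp only [map_add, map_sub, map_zero, h.πA_eq.eq_id, h.j1_eq.eq_id, haeq, smul_sub, mul_smul]
    abel
  obtain ⟨f, hf, hfeq⟩ := (h.smA0.const₂_d12 ha).exists_lift i h2
  exact ⟨f, b, a, rfl, ha, haeq, fun g k => hfeq (g, k)⟩

lemma rel_mem_sha {φ : C1} {f : Γ × Γ → M} (hR : RelA 𝓤 i πA j1 q1 φ f) :
    f ∈ ShaZ2 𝓤 𝓥 r μ := by
  obtain ⟨b, a, hb, ha, h1, h2⟩ := hR
  have hfa : (fun x => i (f x)) = fun y : Γ × Γ => y.1 • a y.2 - a (y.1 * y.2) + a y.1 :=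
    funext fun ⟨g, k⟩ => h2 g k
  refine mem_ShaZ2.2 ⟨mem_LZ2.2 ⟨?_, ?_⟩, fun v => ?_⟩
  · apply isCocycle₂_of_injective h.i_eq h.sA.inj
    rw [hfa]; exact isCocycle₂_d12 a
  · apply Lev.Const₂.of_comp_injective h.sA.inj
    rw [hfa]; exact h.smA0.const₂_d12 ha
  · obtain ⟨x, hx⟩ := (h.sv v).surj (β1 v b)
    have hw : ∀ g : Gv v, ∃ m, iv v m = β0 v (j0 (a (r v g))) - (g • x - x) := by
      intro g
      apply ((h.sv v).exact _).1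
      rw [map_sub, h.sqv, h.sqAB, h1, map_sub (πv v), (h.πv_eq v).eq_id, hx, map_sub,
        (h.β1_eq v).eq, sub_self]
    have hc : (𝓥 v).Const₁ (fun g => β0 v (j0 (a (r v g))) - (g • x - x)) :=
      ((h.cont v).const₁ ha (fun y => β0 v (j0 y))).sub ((h.smA0v v).const₁_d01 x)
    obtain ⟨m, hm, hmeq⟩ := hc.exists_lift (iv v) hw
    refine mem_LB2.2 ⟨m, hm, fun g k => ?_⟩
    apply (h.sv v).inj
    simp only [pull₂_apply, ← h.sqM, h2, map_add, map_sub, (h.iv_eq v).eq_id, hmeq,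
      h.j0_eq.eq_id, (h.β0_eq v).eq, map_mul, smul_sub, mul_smul]
    abel

lemma rel_wd {φ : C1} {f : Γ × Γ → M} (hR : RelA 𝓤 i πA j1 q1 φ f)
    (hφ : φ ∈ (inv (⊤ : Subgroup Γ) C0).map πC ⊔ (inv (⊤ : Subgroup Γ) B1).map q1) :
    f ∈ LB2 𝓤 M := by
  obtain ⟨b, a, hb, ha, h1, h2⟩ := hR
  obtain ⟨_, ⟨γ, hγ, rfl⟩, _, ⟨b', hb', rfl⟩, hsum⟩ := AddSubgroup.mem_sup.1 hφ
  obtain ⟨b0, rfl⟩ := h.s0.surj γ
  have hz : ∀ g : Γ, ∃ z, j0 z = g • b0 - b0 := fun g =>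
    (h.s0.exact _).1 (by rw [map_sub, h.q0_eq.eq_id, hγ g trivial, sub_self])
  obtain ⟨z, hzc, hzeq⟩ := (h.smB0.const₁_d01 b0).exists_lift j0 hz
  have hzcoc : ∀ g k, g • z k - z (g * k) + z g = 0 := by
    intro g k
    apply h.s0.inj
    simp only [map_add, map_sub, map_zero, h.j0_eq.eq_id, hzeq, smul_sub, mul_smul]
    abel
  have hq : q1 (b - b' - πB b0) = 0 := by
    rw [map_sub, map_sub, hb, ← hsum, h.sqBC]; abel
  obtain ⟨a1, ha1⟩ := (h.s1.exact _).1 hq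
  obtain ⟨a1', rfl⟩ := h.sA.surj a1
  have hm : ∀ g, ∃ m, i m = a g - z g - (g • a1' - a1') := by
    intro g
    apply (h.sA.exact _).1
    apply h.s1.inj
    have e2 : j1 (πA (z g)) = g • πB b0 - πB b0 := by
      rw [← h.sqAB, hzeq, map_sub, h.πB_eq.eq_id]
    have e4 : g • b' = b' := hb' g trivial
    simp only [map_sub, map_zero, h.πA_eq.eq_id, h.j1_eq.eq_id, h1, e2, ha1, smul_sub, e4]
    abel
  obtain ⟨m, hmc, hmeq⟩ := ((ha.sub hzc).sub (h.smA0.const₁_d01 a1')).exists_lift i hm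
  refine mem_LB2.2 ⟨m, hmc, fun g k => ?_⟩
  apply h.sA.inj
  have e := hzcoc g k
  simp only [h2, map_add, map_sub, h.i_eq.eq_id, hmeq, smul_sub, mul_smul]
  have e' : g • z k = z (g * k) - z g := by
    have : g • z k = (g • z k - z (g * k) + z g) + (z (g * k) - z g) := by abel
    rw [this, e, zero_add]
  rw [e']
  abel

lemma rel_inj {φ : C1} {f : Γ × Γ → M} (hR : RelA 𝓤 i πA j1 q1 φ f) (hf : f ∈ LB2 𝓤 M) :
    φ ∈ (inv (⊤ : Subgroup Γ) C0).map πC ⊔ (inv (⊤ : Subgroup Γ) B1).map q1 := by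
  obtain ⟨b, a, hb, ha, h1, h2⟩ := hR
  obtain ⟨m, hmc, hm⟩ := mem_LB2.1 hf
  have hzc : 𝓤.Const₁ (fun g => j0 (a g - i (m g))) :=
    (ha.sub (hmc.comp i)).comp j0
  have hzcoc : IsCocycle₁ (fun g => j0 (a g - i (m g))) := by
    rw [isCocycle₁_iff]
    intro g k
    have e := h2 g k
    rw [hm g k] at e
    simp only [map_add, map_sub, h.i_eq.eq_id] at e
    have e2 : g • (a k - i (m k)) - (a (g * k) - i (m (g * k))) + (a g - i (m g)) = 0 := by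
      rw [smul_sub]
      have : g • a k - g • i (m k) - (a (g * k) - i (m (g * k))) + (a g - i (m g))
          = (g • a k - a (g * k) + a g) - (g • i (m k) - i (m (g * k)) + i (m g)) := by abel
      rw [this, e, sub_self]
    have e3 := congrArg j0 e2
    simpa only [map_add, map_sub, map_zero, h.j0_eq.eq_id] using e3
  obtain ⟨b0, hb0⟩ := h.H2 _ (mem_LZ1.2 ⟨hzcoc, hzc⟩)
  have hγ : q0 b0 ∈ inv (⊤ : Subgroup Γ) C0 := by
    intro g _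
    have e := congrArg q0 (hb0 g)
    rw [h.s0.comp_eq_zero, map_sub, h.q0_eq.eq_id, sub_eq_zero] at e
    exact e
  have hb' : b - πB b0 ∈ inv (⊤ : Subgroup Γ) B1 := by
    intro g _
    have e := congrArg πB (hb0 g)
    rw [h.sqAB, map_sub, map_sub, map_sub, h.sA.comp_eq_zero, map_zero, sub_zero, h1,
      h.πB_eq.eq_id] at e
    rw [smul_sub]
    have : g • b - g • πB b0 = (b - πB b0) + ((g • b - b) - (g • πB b0 - πB b0)) := by abel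
    rw [this, e, sub_self, add_zero]
  refine AddSubgroup.mem_sup.2 ⟨_, ⟨_, hγ, rfl⟩, _, ⟨_, hb', rfl⟩, ?_⟩
  rw [h.sqBC, map_sub, hb]; abel

lemma rel_surj {f : Γ × Γ → M} (hf : f ∈ ShaZ2 𝓤 𝓥 r μ) :
    ∃ φ ∈ inv (⊤ : Subgroup Γ) C1, RelA 𝓤 i πA j1 q1 φ f := by
  obtain ⟨hfZ, hfloc⟩ := mem_ShaZ2.1 hf
  choose mv hmvc hmv using fun v => mem_LB2.1 (hfloc v)
  simp only [pull₂_apply] at hmv
  -- step 1: `f` dies in `H²(B0)`
  have hF : (fun x => j0 (i (f x))) ∈ LZ2 𝓤 B0 := by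
    refine mem_LZ2.2 ⟨?_, hfZ.2.comp (fun y => j0 (i y))⟩
    intro g k l
    have e := congrArg (fun y => j0 (i y)) (hfZ.1 g k l)
    simpa only [map_add, h.i_eq.eq_id, h.j0_eq.eq_id] using e
  have hFloc : ∀ v, pull₂ (r v) (β0 v) (fun x => j0 (i (f x))) ∈ LB2 (𝓥 v) (A0v v) := by
    intro v
    refine mem_LB2.2 ⟨fun g => iv v (mv v g), (hmvc v).comp (iv v), fun g k => ?_⟩
    simp only [pull₂_apply, h.sqM, hmv, map_add, map_sub, (h.iv_eq v).eq_id]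
  obtain ⟨bt, hbtc, hbt⟩ := mem_LB2.1 (h.H4 _ hF hFloc)
  -- step 2: the class in `H¹(C0)`
  have hc : (fun g => q0 (bt g)) ∈ LZ1 𝓤 C0 := by
    refine mem_LZ1.2 ⟨?_, hbtc.comp q0⟩
    rw [isCocycle₁_iff]
    intro g k
    have e := congrArg q0 (hbt g k)
    rw [h.s0.comp_eq_zero] at e
    simpa only [map_add, map_sub, h.q0_eq.eq_id] using e.symm
  obtain ⟨n, hn, c0, hc0⟩ := h.H1 _ hc
  obtain ⟨b0, rfl⟩ := h.s0.surj c0
  have ha1 : ∀ g, ∃ y, j0 y = n • bt g - (g • b0 - b0) := by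
    intro g
    apply (h.s0.exact _).1
    have e := hc0 g
    simp only [Pi.smul_apply] at e
    rw [map_sub, map_zsmul, ← e, map_sub, h.q0_eq.eq_id, sub_self]
  obtain ⟨a1, ha1c, ha1eq⟩ :=
    ((hbtc.comp (fun y => n • y)).sub (h.smB0.const₁_d01 b0)).exists_lift j0 ha1
  simp only [Function.comp_apply] at ha1eq
  have hda1 : ∀ g k, g • a1 k - a1 (g * k) + a1 g = n • i (f (g, k)) := by
    intro g k
    apply h.s0.inj
    simp only [map_add, map_sub, map_zsmul, h.j0_eq.eq_id, ha1eq, hbt, smul_sub, mul_smul,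
      smul_add, smul_comm g n]
    abel
  obtain ⟨u, w, huw⟩ := hn
  have hpf : ∀ y : M, (p : ℤ) • i y = 0 := by
    intro y
    rw [← map_zsmul, natCast_zsmul, h.pM, map_zero]
  have hac : 𝓤.Const₁ (fun g => u • a1 g) := ha1c.comp (fun y => u • y)
  have hda : ∀ g k, i (f (g, k)) = g • (u • a1 k) - u • a1 (g * k) + u • a1 g := by
    intro g k
    have e : g • (u • a1 k) - u • a1 (g * k) + u • a1 g
        = u • (g • a1 k - a1 (g * k) + a1 g) := by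
      rw [smul_add, smul_sub, smul_comm g u]
    rw [e, hda1, smul_smul]
    have e2 : u * n = 1 - w * (p : ℤ) := by rw [← huw]; ring
    rw [e2, sub_smul, one_smul, mul_smul, hpf, smul_zero, sub_zero]
  -- step 3: the class in `H¹(A1)` dies in `H¹(B1)`
  have hy : (fun g => j1 (πA (u • a1 g))) ∈ LZ1 𝓤 B1 := by
    refine mem_LZ1.2 ⟨?_, hac.comp (fun y => j1 (πA y))⟩
    rw [isCocycle₁_iff]
    intro g k
    have e := congrArg (fun y => j1 (πA y)) (hda g k)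
    simp only [h.sA.comp_eq_zero, map_zero] at e
    simpa only [map_add, map_sub, h.πA_eq.eq_id, h.j1_eq.eq_id] using e.symm
  have hyloc : ∀ v, IsCoboundary₁ (pull₁ (r v) (β1 v) (fun g => j1 (πA (u • a1 g)))) := by
    intro v
    have hz : (fun g => β0 v (j0 (u • a1 (r v g))) - iv v (mv v g)) ∈ LZ1 (𝓥 v) (A0v v) := by
      refine mem_LZ1.2 ⟨?_, ((h.cont v).const₁ hac (fun y => β0 v (j0 y))).sub
        ((hmvc v).comp (iv v))⟩
      rw [isCocycle₁_iff]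
      intro g k
      have e := congrArg (fun y => β0 v (j0 y)) (hda (r v g) (r v k))
      simp only [h.sqM, hmv, map_add, map_sub, (h.iv_eq v).eq_id, h.j0_eq.eq_id,
        (h.β0_eq v).eq] at e
      simp only [map_mul, smul_sub]
      have e3 : ∀ P Q R P' Q' R' : A0v v, P' - Q' + R' = P - Q + R →
          P - P' - (Q - Q') + (R - R') = 0 := by
        intro P Q R P' Q' R' hh
        have : P - P' - (Q - Q') + (R - R') = (P - Q + R) - (P' - Q' + R') := by abel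
        rw [this, hh, sub_self]
      exact e3 _ _ _ _ _ _ e
    obtain ⟨x, hx⟩ := h.H3 v _ hz
    refine ⟨πv v x, fun g => ?_⟩
    have e := congrArg (πv v) (hx g)
    rw [map_sub, map_sub, (h.sv v).comp_eq_zero, sub_zero, (h.πv_eq v).eq_id, h.sqv, h.sqAB] at e
    exact e
  obtain ⟨b, hb⟩ := h.H5 _ hy hyloc
  refine ⟨q1 b, ?_, b, fun g => u • a1 g, rfl, hac, fun g => (hb g).symm, hda⟩
  intro g _
  have e := congrArg q1 (hb g)
  rw [h.s1.comp_eq_zero, map_sub, h.q1_eq.eq_id, sub_eq_zero] at e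
  exact e

/-- **Formal Theorem A.** `C1^Γ ⧸ (im C0^Γ + im B1^Γ) ≃+ Ш²(M)`. -/
theorem sha2_equiv :
    Nonempty ((↥(inv (⊤ : Subgroup Γ) C1) ⧸
        ((inv (⊤ : Subgroup Γ) C0).map πC ⊔ (inv (⊤ : Subgroup Γ) B1).map q1).addSubgroupOf
          (inv (⊤ : Subgroup Γ) C1)) ≃+ ShaQ2 𝓤 𝓥 r μ) := by
  refine nonempty_addEquiv_of_rel _ _
    (fun (φ : ↥(inv (⊤ : Subgroup Γ) C1)) (f : ↥(ShaZ2 𝓤 𝓥 r μ)) =>
      RelA 𝓤 i πA j1 q1 (φ : C1) (f : Γ × Γ → M)) ?_ ?_ ?_ ?_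
  · intro φ φ' f f' hR hR'
    exact hR.add hR'
  · intro φ
    obtain ⟨f, hf⟩ := h.rel_total φ.2
    exact ⟨⟨f, h.rel_mem_sha hf⟩, hf⟩
  · intro φ f hR
    exact ⟨fun hφ => h.rel_wd hR hφ, fun hf => h.rel_inj hR hf⟩
  · intro f
    obtain ⟨φ, hφ, hR⟩ := h.rel_surj f.2
    exact ⟨⟨φ, hφ⟩, hR⟩

end IsThmA

end ThmA

end Fermat.Agent.S55Lib
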